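/-
S35, piece (X) (helper252): frozen interface Props for the exclusion statement
`Fermat.Agent.S35.H991.ExclTateStatement` (S35/H991/Mid.lean).

  ExclTateStatement  <=  ExclPolyStatement               (S35/H252/ExclGlue.lean, this seat)
  ExclPolyStatement  <=  XFormsStatement + XJacStatement  (`exclPoly_of`, below)

* `XFormsStatement` (forms side): for a newform `g` of level `M`, a prime `q ∣ M` and a finite
  set `S` containing the primes of `M` there is a polynomial `t` in the Hecke operators `T_ℓ`,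
  `ℓ ∉ S`, which is `0` on `S₂(Γ₀(M / q))` and with `t(a_ℓ(g)) ≠ 0`.
* `XJacStatement` (Jacobian side, "FACTOR"): a polynomial `t` in the `T_ℓ`, `ℓ ∉ S`
  (`S ∋ p`, `S ⊇ primes of N`), which is `0` on `S₂(Γ₀(N))` kills the `p`-power torsion of `J₀(N)`.

This file imports the Prelude only.
-/
import Fermat.Prelude.Def_ModularCurve_HeckeModule
import Fermat.Prelude.Def_CuspForm_HeckeEvalForms
import Fermat.Prelude.Def_CuspForm_Newforms

set_option autoImplicit false

namespace Fermat.Agent.S35.H252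

open CongruenceSubgroup

/-- **(X), polynomial form.**  There is a polynomial in the Hecke operators away from `S` which
kills the `p`-power torsion of `J₀(M / q)` but not the newform `g` of level `M`. -/
def ExclPolyStatement : Prop :=
  ∀ (M : ℕ) [NeZero M] (g : CuspForm (Gamma0 M) 2), g.IsNewform →
    ∀ (q : ℕ) [NeZero (M / q)], q.Prime → q ∣ M →
    ∀ (p : ℕ) (S : Finset ℕ), p.Prime → p ∈ S → (∀ r : ℕ, r.Prime → r ∣ M → r ∈ S) →
    ∃ (h : ModularCurve.HeckeOperatorsCommuteBar (M / q))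
      (t : MvPolynomial {ℓ : Nat.Primes // (ℓ : ℕ) ∉ S} ℤ),
      (∀ (n : ℕ) (x : ModularCurve.JZero (M / q)), ((p : ℤ) ^ n) • x = 0 →
        ModularCurve.heckeEvalBar h (MvPolynomial.rename Subtype.val t) x = 0) ∧
      MvPolynomial.aeval (fun ℓ : {ℓ : Nat.Primes // (ℓ : ℕ) ∉ S} =>
        ModularFormClass.qCoeff g ((ℓ : Nat.Primes) : ℕ)) t ≠ 0

/-- **(X-forms).**  The eigensystem away from `S` of a newform of level `M` is cut out from
`S₂(Γ₀(M / q))` by a polynomial in the Hecke operators away from `S`. -/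
def XFormsStatement : Prop :=
  ∀ (M : ℕ) [NeZero M] (g : CuspForm (Gamma0 M) 2), g.IsNewform →
    ∀ (q : ℕ) [NeZero (M / q)], q.Prime → q ∣ M →
    ∀ (S : Finset ℕ), (∀ r : ℕ, r.Prime → r ∣ M → r ∈ S) →
    ∃ t : MvPolynomial {ℓ : Nat.Primes // (ℓ : ℕ) ∉ S} ℤ,
      (∀ f : CuspForm (Gamma0 (M / q)) 2,
        (CuspForm.heckeEvalForms (M / q) 2 (MvPolynomial.rename Subtype.val t) :
          Module.End ℂ (CuspForm (Gamma0 (M / q)) 2)) f = 0) ∧
      MvPolynomial.aeval (fun ℓ : {ℓ : Nat.Primes // (ℓ : ℕ) ∉ S} =>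
        ModularFormClass.qCoeff g ((ℓ : Nat.Primes) : ℕ)) t ≠ 0

/-- **(X-J), FACTOR.**  A polynomial in the Hecke operators away from `S` which vanishes on
`S₂(Γ₀(N))` kills the `p`-power torsion of `J₀(N)` (`p ∈ S`, primes of `N` in `S`). -/
def XJacStatement : Prop :=
  ∀ (N : ℕ) [NeZero N] (p : ℕ) (S : Finset ℕ), p.Prime → p ∈ S →
    (∀ r : ℕ, r.Prime → r ∣ N → r ∈ S) →
    ∀ t : MvPolynomial {ℓ : Nat.Primes // (ℓ : ℕ) ∉ S} ℤ,
      (∀ f : CuspForm (Gamma0 N) 2,
        (CuspForm.heckeEvalForms N 2 (MvPolynomial.rename Subtype.val t) :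
          Module.End ℂ (CuspForm (Gamma0 N) 2)) f = 0) →
      ∃ h : ModularCurve.HeckeOperatorsCommuteBar N,
        ∀ (n : ℕ) (x : ModularCurve.JZero N), ((p : ℤ) ^ n) • x = 0 →
          ModularCurve.heckeEvalBar h (MvPolynomial.rename Subtype.val t) x = 0

/-- `(X-forms) + (X-J) ⇒ (X)` in the polynomial form. -/
theorem exclPoly_of (hF : XFormsStatement) (hJ : XJacStatement) : ExclPolyStatement := by
  intro M _ g hg q _ hq hqM p S hp hpS hMS
  obtain ⟨t, ht0, htg⟩ := hF M g hg q hq hqM S hMS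
  have hNS : ∀ r : ℕ, r.Prime → r ∣ M / q → r ∈ S := fun r hr hrN =>
    hMS r hr (hrN.trans (Nat.div_dvd_of_dvd hqM))
  obtain ⟨h, hkill⟩ := hJ (M / q) p S hp hpS hNS t ht0
  exact ⟨h, t, hkill, htg⟩

end Fermat.Agent.S35.H252
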