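/-
S35, piece (X-J) (helper252): `XJacStatement` ("FACTOR"), UNCONDITIONAL.

A polynomial `t` in the Hecke operators `T_ℓ`, `ℓ ∉ S` (`p ∈ S`, primes of `N` in `S`), which
vanishes on `S₂(Γ₀(N))` kills the `p`-power torsion of `J₀(N)(ℚ̄)`.

Route (all inputs on main):
* ONTO  (`S30.H810.exists_isParHom_isKum_of_torsion`): every `m`-torsion class `x` is the Kummer
  class of a parabolic character `c : Γ₀(N) → ℤ/m`;
* HFree (`Lib.HFree.H412.exists_lift_isPe`): `c` lifts to an integral parabolic character `c'`;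
* S21   (`Lib.HFree.H412.exists_mem_intPerLattice`): `c'` is the real period character of a cusp
  form `f`;
* the relation `JRel x f` so obtained is additive, `ℤ`-homogeneous and Hecke-equivariant
  (`S30.Chain.kumPackage` + `S29.H201.periodMap_heckeTLin`), and `JRel x 0 → x = 0`.
-/
import Fermat.Agent.S35.H252.XSpec
import Fermat.Agent.S30.Chain.Package
import Fermat.Agent.S30.H810.ParHom
import Fermat.Agent.Lib.HFree.H412.R3Core
import Fermat.Agent.S29.M1

set_option autoImplicit false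
set_option linter.unusedSectionVars false
set_option linter.style.haveILetI false

open CuspForm CongruenceSubgroup ModularFormClass ModularCurve ModularCurve.Period
open scoped MatrixGroups

namespace Fermat.Agent.S35.H252

open Fermat.Agent.S29 (G0 IsParHom heckeCoh)
open Fermat.Agent.S29.M4b (IsKum)
open Fermat.Agent.S30.H450 (KumPackage)
open Fermat.Agent.S29.H201 (heckeHom heckeHom_comp heckeHom_mem_pe IsPe)
open Fermat.Agent.S21 (reHom periodMap_add periodMap_smul)
open Fermat.Agent.Lib.HFree.H412 (bundle bundle_apply isPe_bundle heckeHom_bundle isPe_int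
  exists_lift_isPe exists_mem_intPerLattice reHom_periodMap_heckeTLin)

variable {N m : ℕ} [NeZero N]

/-! ### Small facts on the Kummer relation -/

/-- The zero character is parabolic. -/
theorem xj_isParHom_zero : IsParHom (0 : G0 N → ZMod m) :=
  ⟨fun _ _ => by simp, fun _ _ => rfl, fun _ _ _ _ => rfl⟩

/-- The Kummer class of the zero character is zero. -/
theorem xj_isKum_zero (K : KumPackage N m) : IsKum N m (0 : G0 N → ZMod m) (0 : JZero N) := by
  obtain ⟨x0, h0⟩ := K.ex 0 xj_isParHom_zero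
  have h1 := K.add 0 0 x0 x0 h0 h0
  rw [add_zero] at h1
  have hx : x0 + x0 = x0 := K.uniq 0 _ _ h1 h0
  have hx0 : x0 = 0 := by simpa using hx
  rwa [hx0] at h0

/-- Natural multiples of a Kummer pair. -/
theorem xj_isKum_nsmul (K : KumPackage N m) {c : G0 N → ZMod m} {x : JZero N}
    (h : IsKum N m c x) (n : ℕ) : IsKum N m (n • c) (n • x) := by
  induction n with
  | zero => simpa using xj_isKum_zero K
  | succ k ih =>
    rw [succ_nsmul, succ_nsmul]
    exact K.add _ _ _ _ ih h

/-- Integral multiples of a Kummer pair killed by `m`. -/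
theorem xj_isKum_zsmul [NeZero m] (K : KumPackage N m) {c : G0 N → ZMod m} {x : JZero N}
    (hx : (m : ℤ) • x = 0) (h : IsKum N m c x) (a : ℤ) :
    IsKum N m (fun γ => (a : ZMod m) * c γ) (a • x) := by
  set n : ℕ := (a % (m : ℤ)).toNat with hn
  have hm0 : (m : ℤ) ≠ 0 := by exact_mod_cast NeZero.ne m
  have hnz : (n : ℤ) = a % (m : ℤ) := Int.toNat_of_nonneg (Int.emod_nonneg _ hm0)
  have hax : a • x = n • x := by
    have hdecomp : a = (m : ℤ) * (a / (m : ℤ)) + (n : ℤ) := by
      rw [hnz]; exact (Int.mul_ediv_add_emod a m).symm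
    rw [hdecomp, add_zsmul, mul_comm, mul_zsmul, hx, smul_zero, zero_add, natCast_zsmul]
  have hna : (n : ZMod m) = (a : ZMod m) := by
    have : ((n : ℤ) : ZMod m) = ((a % (m : ℤ) : ℤ) : ZMod m) := by rw [hnz]
    rw [Int.cast_natCast] at this
    rw [this]
    exact (ZMod.intCast_mod a m)
  have h2 : IsKum N m (n • c) (n • x) := xj_isKum_nsmul K h n
  have hc : (n • c) = fun γ => (a : ZMod m) * c γ := by
    funext γ
    rw [Pi.smul_apply, nsmul_eq_mul, hna]
  rw [hax, ← hc]
  exact h2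

/-! ### The relation between torsion points and cusp forms -/

/-- `x ∈ J₀(N)[m]` and the cusp form `f` are related: the Kummer character of `x` is the
reduction modulo `m` of the (integral) real period character of `f`. -/
def JRel (N m : ℕ) [NeZero N] (x : JZero N) (f : CuspForm (Gamma0 N) 2) : Prop :=
  (m : ℤ) • x = 0 ∧ ∃ c' : Additive (Gamma0 N) →+ ℤ, IsParabolicHom (Gamma0 N) c' ∧
    reHom (periodMap N f) = (Int.castAddHom ℝ).comp c' ∧
    IsKum N m (fun γ : G0 N => ((c' (Additive.ofMul γ) : ℤ) : ZMod m)) x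

/-- Every `m`-torsion point is related to a cusp form. -/
theorem jRel_exists [NeZero m] {x : JZero N} (hx : (m : ℤ) • x = 0) :
    ∃ f : CuspForm (Gamma0 N) 2, JRel N m x f := by
  obtain ⟨c, hc, hk⟩ := Fermat.Agent.S30.H810.exists_isParHom_isKum_of_torsion N m hx
  obtain ⟨c', hc'par, hc'red⟩ := exists_lift_isPe m (bundle c hc) (isPe_bundle c hc)
  obtain ⟨f, hf⟩ := exists_mem_intPerLattice c' hc'par
  refine ⟨f, hx, c', hc'par, hf, ?_⟩
  have hcc : (fun γ : G0 N => ((c' (Additive.ofMul γ) : ℤ) : ZMod m)) = c := by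
    funext γ
    have := DFunLike.congr_fun hc'red (Additive.ofMul γ)
    rw [bundle_apply] at this
    exact this
  rw [hcc]
  exact hk

theorem jRel_add (K : KumPackage N m) {x x' : JZero N} {f f' : CuspForm (Gamma0 N) 2}
    (h : JRel N m x f) (h' : JRel N m x' f') : JRel N m (x + x') (f + f') := by
  obtain ⟨hx, c, hc, hf, hk⟩ := h
  obtain ⟨hx', d, hd, hf', hk'⟩ := h'
  refine ⟨by rw [zsmul_add, hx, hx', add_zero], c + d, fun γ hγ => ?_, ?_, ?_⟩
  · show c (Additive.ofMul γ) + d (Additive.ofMul γ) = 0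
    rw [hc γ hγ, hd γ hγ, add_zero]
  · refine AddMonoidHom.ext fun γ => ?_
    have h1 : (periodMap N f γ).re = ((c γ : ℤ) : ℝ) := DFunLike.congr_fun hf γ
    have h2 : (periodMap N f' γ).re = ((d γ : ℤ) : ℝ) := DFunLike.congr_fun hf' γ
    show (periodMap N (f + f') γ).re = (((c + d) γ : ℤ) : ℝ)
    rw [periodMap_add, AddMonoidHom.add_apply, Complex.add_re, h1, h2,
      AddMonoidHom.add_apply]
    push_cast
    rfl
  · have h3 := K.add _ _ _ _ hk hk'
    have hcd : ((fun γ : G0 N => ((c (Additive.ofMul γ) : ℤ) : ZMod m)) +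
        fun γ : G0 N => ((d (Additive.ofMul γ) : ℤ) : ZMod m))
        = fun γ : G0 N => (((c + d) (Additive.ofMul γ) : ℤ) : ZMod m) := by
      funext γ
      rw [Pi.add_apply, AddMonoidHom.add_apply]
      push_cast
      rfl
    rw [hcd] at h3
    exact h3

theorem jRel_zsmul [NeZero m] (K : KumPackage N m) {x : JZero N} {f : CuspForm (Gamma0 N) 2}
    (h : JRel N m x f) (a : ℤ) : JRel N m (a • x) (a • f) := by
  obtain ⟨hx, c, hc, hf, hk⟩ := h
  refine ⟨by rw [smul_comm, hx, smul_zero], a • c, fun γ hγ => ?_, ?_, ?_⟩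
  · show a • c (Additive.ofMul γ) = 0
    rw [hc γ hγ, smul_zero]
  · refine AddMonoidHom.ext fun γ => ?_
    have h1 : (periodMap N f γ).re = ((c γ : ℤ) : ℝ) := DFunLike.congr_fun hf γ
    have hsmul : periodMap N (a • f) = (a : ℂ) • periodMap N f := by
      rw [← periodMap_smul, Int.cast_smul_eq_zsmul]
    show (periodMap N (a • f) γ).re = (((a • c) γ : ℤ) : ℝ)
    rw [hsmul, AddMonoidHom.smul_apply, AddMonoidHom.smul_apply, smul_eq_mul, smul_eq_mul,
      Complex.mul_re, Complex.intCast_re, Complex.intCast_im, zero_mul, sub_zero, h1]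
    push_cast
    rfl
  · have h3 := xj_isKum_zsmul K hx hk a
    have hcd : (fun γ : G0 N => (a : ZMod m) * ((c (Additive.ofMul γ) : ℤ) : ZMod m))
        = fun γ : G0 N => (((a • c) (Additive.ofMul γ) : ℤ) : ZMod m) := by
      funext γ
      rw [AddMonoidHom.smul_apply, smul_eq_mul]
      push_cast
      rfl
    rw [hcd] at h3
    exact h3

theorem jRel_hecke [NeZero m] (K : KumPackage N m) {ℓ : ℕ} (hℓ : ℓ.Prime) (hℓN : ¬ ℓ ∣ N)
    (hℓNm : ¬ ℓ ∣ N * m) {x : JZero N} {f : CuspForm (Gamma0 N) 2} (h : JRel N m x f) :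
    JRel N m (heckeOperatorBar N ⟨ℓ, hℓ⟩ x) (heckeTLin 2 hℓ hℓN f) := by
  haveI : Fact ℓ.Prime := ⟨hℓ⟩
  obtain ⟨hx, c, hc, hf, hk⟩ := h
  have hcpar : IsParHom (fun γ : G0 N => ((c (Additive.ofMul γ) : ℤ) : ZMod m)) :=
    Fermat.Agent.S30.H810.isParHom_of_isKum hk
  refine ⟨by rw [← map_zsmul, hx, map_zero], heckeHom ℓ hℓN ℤ c,
    (heckeHom_mem_pe hℓN (isPe_int hc)).1, ?_, ?_⟩
  · rw [reHom_periodMap_heckeTLin hℓ hℓN, hf, heckeHom_comp]
  · have h3 := K.hecke ⟨ℓ, hℓ⟩ hℓNm _ x hcpar hk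
    have hb : bundle (fun γ : G0 N => ((c (Additive.ofMul γ) : ℤ) : ZMod m)) hcpar
        = (Int.castAddHom (ZMod m)).comp c := by
      refine AddMonoidHom.ext fun γ => ?_
      rfl
    have hcd : heckeCoh N ℓ (fun γ : G0 N => ((c (Additive.ofMul γ) : ℤ) : ZMod m))
        = fun γ : G0 N => (((heckeHom ℓ hℓN ℤ c) (Additive.ofMul γ) : ℤ) : ZMod m) := by
      funext γ
      rw [← heckeHom_bundle hℓN _ hcpar γ, hb, heckeHom_comp]
      rfl
    rw [hcd] at h3
    exact h3

theorem jRel_zero_right (K : KumPackage N m) {x : JZero N}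
    (h : JRel N m x (0 : CuspForm (Gamma0 N) 2)) : x = 0 := by
  obtain ⟨-, c, -, hf, hk⟩ := h
  have h0 : periodMap N (0 : CuspForm (Gamma0 N) 2) = 0 := by
    have := periodMap_smul (N := N) (0 : ℂ) (0 : CuspForm (Gamma0 N) 2)
    rwa [zero_smul, zero_smul] at this
  have hc0 : ∀ γ : G0 N, c (Additive.ofMul γ) = 0 := by
    intro γ
    have h1 : (periodMap N (0 : CuspForm (Gamma0 N) 2) (Additive.ofMul γ)).re
        = ((c (Additive.ofMul γ) : ℤ) : ℝ) := DFunLike.congr_fun hf (Additive.ofMul γ)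
    rw [h0] at h1
    have h2 : ((c (Additive.ofMul γ) : ℤ) : ℝ) = 0 := by
      rw [← h1]
      simp
    exact_mod_cast h2
  have hcz : (fun γ : G0 N => ((c (Additive.ofMul γ) : ℤ) : ZMod m)) = 0 := by
    funext γ
    rw [hc0 γ]
    simp
  rw [hcz] at hk
  exact K.uniq 0 _ _ hk (xj_isKum_zero K)

/-! ### The main induction -/

/-- **(X-J), FACTOR.** -/
theorem xJac : XJacStatement := by
  intro N _ p S hp hpS hNS t ht
  refine ⟨Fermat.Agent.S29.heckeOperatorsCommuteBar N, fun n x hx => ?_⟩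
  haveI : NeZero (p ^ n) := ⟨pow_ne_zero n hp.ne_zero⟩
  have K : KumPackage N (p ^ n) := Fermat.Agent.S30.Chain.kumPackage N (p ^ n)
  have hx' : ((p ^ n : ℕ) : ℤ) • x = 0 := by
    rw [Nat.cast_pow]
    exact hx
  -- the good primes
  have hIN : ∀ i : {ℓ : Nat.Primes // (ℓ : ℕ) ∉ S}, ¬ ((i : Nat.Primes) : ℕ) ∣ N :=
    fun i hdvd => i.2 (hNS _ i.1.2 hdvd)
  have hINm : ∀ i : {ℓ : Nat.Primes // (ℓ : ℕ) ∉ S}, ¬ ((i : Nat.Primes) : ℕ) ∣ N * p ^ n := by
    intro i hdvd
    rcases (Nat.Prime.dvd_mul i.1.2).1 hdvd with h | h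
    · exact hIN i h
    · have h1 := (Nat.prime_dvd_prime_iff_eq i.1.2 hp).1 (i.1.2.dvd_of_dvd_pow h)
      exact i.2 (h1 ▸ hpS)
  -- the induction
  have key : ∀ (s : MvPolynomial {ℓ : Nat.Primes // (ℓ : ℕ) ∉ S} ℤ) (y : JZero N)
      (f : CuspForm (Gamma0 N) 2), JRel N (p ^ n) y f →
      JRel N (p ^ n)
        (heckeEvalBar (Fermat.Agent.S29.heckeOperatorsCommuteBar N)
          (MvPolynomial.rename Subtype.val s) y)
        ((heckeEvalForms N 2 (MvPolynomial.rename Subtype.val s) :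
          Module.End ℂ (CuspForm (Gamma0 N) 2)) f) := by
    intro s
    induction s using MvPolynomial.induction_on with
    | C a =>
      intro y f hyf
      rw [MvPolynomial.rename_C, heckeEvalBar_C, heckeEvalForms_C, Module.End.intCast_apply]
      have h1 : ((algebraMap ℤ (heckeAlgebra N 2 ∅) a : heckeAlgebra N 2 ∅) :
          Module.End ℂ (CuspForm (Gamma0 N) 2)) f = a • f := by
        show ((heckeAlgebra N 2 ∅).val (algebraMap ℤ (heckeAlgebra N 2 ∅) a)) f = a • f
        rw [eq_intCast, map_intCast, Module.End.intCast_apply]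
      rw [h1]
      exact jRel_zsmul K hyf a
    | add s₁ s₂ h₁ h₂ =>
      intro y f hyf
      rw [map_add, map_add, map_add, LinearMap.add_apply, Subalgebra.coe_add,
        LinearMap.add_apply]
      exact jRel_add K (h₁ y f hyf) (h₂ y f hyf)
    | mul_X s i hs =>
      intro y f hyf
      rw [map_mul, map_mul, map_mul, MvPolynomial.rename_X, Module.End.mul_apply,
        Subalgebra.coe_mul, Module.End.mul_apply]
      have e1 : heckeEvalBar (Fermat.Agent.S29.heckeOperatorsCommuteBar N)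
          (MvPolynomial.X (i : Nat.Primes)) = heckeOperatorBar N (i : Nat.Primes) :=
        heckeEvalBar_heckeGen _ (i : Nat.Primes)
      have e2 : heckeEvalForms N 2 (MvPolynomial.X (i : Nat.Primes))
          = heckeAlgebra.T i.1.2 (hIN i) (Set.notMem_empty _) :=
        heckeEvalForms_heckeGen_of_not_dvd (hIN i)
      rw [e1, e2, heckeAlgebra.coe_T]
      exact hs _ _ (jRel_hecke K i.1.2 (hIN i) (hINm i) hyf)
  obtain ⟨f, hf⟩ := jRel_exists (N := N) (m := p ^ n) hx'
  have h1 := key t x f hf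
  rw [ht f] at h1
  exact jRel_zero_right K h1

end Fermat.Agent.S35.H252
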