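/-
S35, piece (X-forms) (helper252): commutative algebra.

* `ker_le_of_isIntegral` : two characters `χ ψ : A → ℂ` with `ker χ ≤ ker ψ`, `χ` having integral
  values (in the strong form: every `s` is killed modulo `ker χ` by a monic integral polynomial),
  have the same kernel;
* `exists_ringEquiv_of_ker_eq` : two characters `χ ψ : A → ℂ` with the same kernel and algebraic
  values differ by a ring automorphism of `ℂ`.
-/
import Fermat.Agent.S48.H308.AutExtend

set_option autoImplicit false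
set_option linter.style.haveILetI false

namespace Fermat.Agent.S35.H252

open Polynomial

/-- If `ker χ ≤ ker ψ` and every element of `A` is integral over `ℤ` modulo `ker χ`, then
`ker ψ ≤ ker χ`. -/
theorem ker_le_of_isIntegral {A : Type*} [CommRing A] (χ ψ : A →+* ℂ)
    (hker : RingHom.ker χ ≤ RingHom.ker ψ)
    (hint : ∀ s : A, ∃ P : ℤ[X], P.Monic ∧ eval₂ (algebraMap ℤ A) s P ∈ RingHom.ker χ) :
    RingHom.ker ψ ≤ RingHom.ker χ := by
  intro s hs
  rw [RingHom.mem_ker] at hs ⊢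
  by_contra hx
  obtain ⟨P, hPmonic, hP⟩ := hint s
  have hP0 : P ≠ 0 := hPmonic.ne_zero
  obtain ⟨Q, hPQ, hQ⟩ := Polynomial.exists_eq_pow_rootMultiplicity_mul_and_not_dvd P hP0 0
  rw [map_zero, sub_zero] at hPQ hQ
  have hQ0 : Q.eval 0 ≠ 0 := by
    intro h0
    apply hQ
    have : (X - C (0 : ℤ)) ∣ Q := Polynomial.dvd_iff_isRoot.mpr h0
    simpa using this
  have e1 : ∀ R : ℤ[X], χ (eval₂ (algebraMap ℤ A) s R) = eval₂ (Int.castRingHom ℂ) (χ s) R := by
    intro R
    rw [Polynomial.hom_eval₂]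
    congr 1
    exact RingHom.ext_int _ _
  have e2 : ∀ R : ℤ[X], ψ (eval₂ (algebraMap ℤ A) s R) = eval₂ (Int.castRingHom ℂ) (ψ s) R := by
    intro R
    rw [Polynomial.hom_eval₂]
    congr 1
    exact RingHom.ext_int _ _
  have h1 := e1 P
  rw [RingHom.mem_ker.mp hP, hPQ, eval₂_mul, eval₂_pow, eval₂_X] at h1
  have h2 : eval₂ (Int.castRingHom ℂ) (χ s) Q = 0 := by
    rcases mul_eq_zero.mp h1.symm with h | h
    · exact absurd h (pow_ne_zero _ hx)
    · exact h
  have h3 : eval₂ (algebraMap ℤ A) s Q ∈ RingHom.ker ψ := by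
    apply hker
    rw [RingHom.mem_ker, e1 Q, h2]
  rw [RingHom.mem_ker, e2 Q, hs] at h3
  have h4 : ((Q.eval 0 : ℤ) : ℂ) = 0 := by
    rw [← h3, Polynomial.eval₂_at_zero, Polynomial.coeff_zero_eq_eval_zero]
    rfl
  exact hQ0 (by exact_mod_cast h4)

/-- Two characters with values in `ℂ`, with the same kernel and with algebraic values, differ by
a ring automorphism of `ℂ`. -/
theorem exists_ringEquiv_of_ker_eq {A : Type*} [CommRing A] (χ ψ : A →+* ℂ)
    (hker : RingHom.ker χ = RingHom.ker ψ) (halg : ∀ s : A, IsAlgebraic ℚ (χ s)) :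
    ∃ σ : ℂ ≃+* ℂ, ∀ s : A, σ (χ s) = ψ s := by
  classical
  -- `ψ` factors through the range of `χ`
  have hf : Function.Surjective χ.rangeRestrict := χ.rangeRestrict_surjective
  have hfker : RingHom.ker χ.rangeRestrict = RingHom.ker χ := RingHom.ker_rangeRestrict χ
  let ψ' : χ.range →+* ℂ :=
    RingHom.liftOfSurjective χ.rangeRestrict hf ⟨ψ, by rw [hfker, hker]⟩
  have hψ' : ∀ s : A, ψ' (χ.rangeRestrict s) = ψ s := fun s =>
    RingHom.liftOfSurjective_comp_apply χ.rangeRestrict hf ⟨ψ, by rw [hfker, hker]⟩ s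
  have hψ'inj : Function.Injective ψ' := by
    rw [injective_iff_map_eq_zero]
    intro y hy
    obtain ⟨s, rfl⟩ := hf y
    rw [hψ' s] at hy
    have hs : s ∈ RingHom.ker χ := by rw [hker]; exact hy
    exact Subtype.ext hs
  -- the fraction field of the range
  let F := FractionRing χ.range
  let ιF : F →+* ℂ := IsFractionRing.lift (A := χ.range) (K := F) (g := χ.range.subtype)
    Subtype.val_injective
  let ψF : F →+* ℂ := IsFractionRing.lift (A := χ.range) (K := F) (g := ψ') hψ'inj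
  have hιF : ∀ y : χ.range, ιF (algebraMap χ.range F y) = (y : ℂ) := fun y =>
    IsFractionRing.lift_algebraMap _ y
  have hψF : ∀ y : χ.range, ψF (algebraMap χ.range F y) = ψ' y := fun y =>
    IsFractionRing.lift_algebraMap _ y
  haveI : CharZero F := ⟨fun a b hab => Nat.cast_injective (R := ℂ) (by
    have h := congrArg ιF hab
    rwa [map_natCast, map_natCast] at h)⟩
  let ιA : F →ₐ[ℚ] ℂ := ιF.toRatAlgHom
  let ψA : F →ₐ[ℚ] ℂ := ψF.toRatAlgHom
  -- the image field is algebraic over `ℚ`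
  have hmem : ∀ z : F, ιF z ∈ algebraicClosure ℚ ℂ := by
    intro z
    obtain ⟨x, y, -, rfl⟩ := IsFractionRing.div_surjective (A := χ.range) z
    rw [map_div₀, hιF, hιF]
    obtain ⟨s, hs⟩ := hf x
    obtain ⟨s', hs'⟩ := hf y
    refine div_mem ?_ ?_
    · rw [mem_algebraicClosure_iff, ← hs]
      exact halg s
    · rw [mem_algebraicClosure_iff, ← hs']
      exact halg s'
  let e : F ≃ₐ[ℚ] ιA.fieldRange := AlgEquiv.ofInjectiveField ιA
  have he : ∀ z : F, ((e z : ιA.fieldRange) : ℂ) = ιF z := fun z => rfl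
  haveI : Algebra.IsAlgebraic ℚ F :=
    ⟨fun z => (isAlgebraic_algHom_iff ιA ιA.injective).mp (mem_algebraicClosure_iff.mp (hmem z))⟩
  haveI : Algebra.IsAlgebraic ℚ ιA.fieldRange := e.isAlgebraic
  let τ : ιA.fieldRange →ₐ[ℚ] ℂ := ψA.comp e.symm.toAlgHom
  obtain ⟨σ, hσ⟩ := Fermat.Agent.S48.H308.exists_ringEquiv_extending ιA.fieldRange τ
  refine ⟨σ, fun s => ?_⟩
  have h1 := hσ (e (algebraMap χ.range F (χ.rangeRestrict s)))
  rw [he, hιF] at h1
  have h2 : τ (e (algebraMap χ.range F (χ.rangeRestrict s)))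
      = ψF (algebraMap χ.range F (χ.rangeRestrict s)) := by
    show ψA (e.symm (e (algebraMap χ.range F (χ.rangeRestrict s)))) = _
    rw [AlgEquiv.symm_apply_apply]
    rfl
  rw [h2, hψF, hψ'] at h1
  exact h1

end Fermat.Agent.S35.H252
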