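/-
S35, piece (X-forms) (helper252): `XFormsStatement`, UNCONDITIONAL.

For a newform `g` of level `M`, a prime `q ∣ M` and a finite set `S` containing the primes of `M`
there is a polynomial `t` in the Hecke operators `T_ℓ`, `ℓ ∉ S`, which vanishes on
`S₂(Γ₀(M / q))` and with `t(a_ℓ(g)) ≠ 0`.

Proof by contradiction: otherwise the kernel of the action on `S₂(Γ₀(M / q))` is contained in the
kernel of the eigencharacter `ψ` of `g`; the eigenvector lemma (`S49.exists_eigenvector_ker_le'`)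
gives an eigenvector with a character `χ`, `ker χ ≤ ker ψ`; by integrality (S22) the kernels are
equal, hence `ψ = σ ∘ χ` for a ring automorphism `σ` of `ℂ` (`exists_ringEquiv_of_ker_eq`); the
`σ`-conjugate (`S23.Cap.galois_stable`) of the normalised eigenform attached to the eigenvector
(`Lib.Newform.H863.exists_normalizedEigenform_of_eigenvector`) is a normalised eigenform of level
`M / q` with the eigenvalues of `g` away from `S`; this contradicts
`Lib.Newform.H958.X.crossLevel` (`M ∣ M / q`).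
-/
import Fermat.Agent.S35.H252.XSpec
import Fermat.Agent.S35.H252.FieldAut
import Fermat.Agent.S49.LinAlg
import Fermat.Agent.S22
import Fermat.Agent.S23.Cap.Galois
import Fermat.Agent.Lib.Newform.H863.GoodEigen
import Fermat.Agent.Lib.Newform.H958.X.Final

set_option autoImplicit false
set_option linter.style.haveILetI false

open CuspForm CongruenceSubgroup ModularFormClass Polynomial

namespace Fermat.Agent.S35.H252

/-- The conjugate of a normalised eigenform by a ring endomorphism of `ℂ`. -/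
theorem exists_conj_eigenform {N : ℕ} [NeZero N] (σ : ℂ →+* ℂ) {f : CuspForm (Gamma0 N) 2}
    (hf : f.IsNormalizedEigenform) :
    ∃ f' : CuspForm (Gamma0 N) 2, f'.IsNormalizedEigenform ∧
      ∀ n : ℕ, qCoeff f' n = σ (qCoeff f n) := by
  obtain ⟨g, ⟨g', rfl⟩, hg⟩ := Fermat.Agent.S23.Cap.galois_stable N 2 σ f ⟨f, rfl⟩
  have hq : ∀ n : ℕ, qCoeff g' n = σ (qCoeff f n) := by
    intro n
    show (Fermat.Agent.S23.Cap.qx (g' : UpperHalfPlane → ℂ)).coeff n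
      = σ ((Fermat.Agent.S23.Cap.qx (f : UpperHalfPlane → ℂ)).coeff n)
    rw [hg, PowerSeries.coeff_map]
  refine ⟨g', ⟨?_, ?_, ?_, ?_⟩, hq⟩
  · rw [hq, hf.qCoeff_one, map_one]
  · intro m n hmn
    rw [hq, hq, hq, hf.qCoeff_mul_of_coprime m n hmn, map_mul]
  · intro p r hp hpN
    rw [hq, hq, hq, hq, hf.qCoeff_prime_pow_of_not_dvd p r hp hpN, map_sub, map_mul, map_mul,
      map_natCast]
  · intro p r hp hpN
    rw [hq, hq, hq, hf.qCoeff_prime_pow_of_dvd p r hp hpN, map_mul]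

/-- **(X-forms).** -/
theorem xForms : XFormsStatement := by
  classical
  intro M _ g hg q _ hq hqM S hMS
  by_contra hcon
  push Not at hcon
  -- the good primes
  have hqdvd : M / q ∣ M := Nat.div_dvd_of_dvd hqM
  have hIN : ∀ i : {ℓ : Nat.Primes // (ℓ : ℕ) ∉ S}, ¬ ((i : Nat.Primes) : ℕ) ∣ M / q :=
    fun i hdvd => i.2 (hMS _ i.1.2 (hdvd.trans hqdvd))
  -- the two characters
  let ρ : MvPolynomial {ℓ : Nat.Primes // (ℓ : ℕ) ∉ S} ℤ →+*
      Module.End ℂ (CuspForm (Gamma0 (M / q)) 2) :=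
    ((heckeAlgebra (M / q) 2 ∅).val.toRingHom).comp
      ((heckeEvalForms (M / q) 2).comp (MvPolynomial.rename Subtype.val).toRingHom)
  let ψ : MvPolynomial {ℓ : Nat.Primes // (ℓ : ℕ) ∉ S} ℤ →+* ℂ :=
    (MvPolynomial.aeval (fun ℓ : {ℓ : Nat.Primes // (ℓ : ℕ) ∉ S} =>
      qCoeff g ((ℓ : Nat.Primes) : ℕ))).toRingHom
  have hρψ : RingHom.ker ρ ≤ RingHom.ker ψ := by
    intro t ht
    rw [RingHom.mem_ker] at ht ⊢
    refine hcon t fun f => ?_
    have : ρ t f = 0 := by rw [ht, LinearMap.zero_apply]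
    exact this
  haveI : FiniteDimensional ℂ (CuspForm (Gamma0 (M / q)) 2) :=
    Fermat.Agent.Lib.Newform.H863.finiteDimensional_cuspForm (M / q)
  haveI : (RingHom.ker ψ).IsPrime := RingHom.ker_isPrime ψ
  obtain ⟨h, χ, hh, hχ, hker⟩ := Fermat.Agent.S49.exists_eigenvector_ker_le'
    (K := ℂ) (V := CuspForm (Gamma0 (M / q)) 2) ρ (RingHom.ker ψ) hρψ
  -- `ker ρ ≤ ker χ`
  have hρχ : RingHom.ker ρ ≤ RingHom.ker χ := by
    intro t ht
    rw [RingHom.mem_ker] at ht ⊢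
    have h1 := hχ t
    rw [ht, LinearMap.zero_apply] at h1
    rcases smul_eq_zero.mp h1.symm with h2 | h2
    · exact h2
    · exact absurd h2 hh
  -- integrality
  haveI : Module.Finite ℤ (heckeAlgebra (M / q) 2 (∅ : Set ℕ)) :=
    Fermat.Agent.S22.result (M / q) 2 ∅
  haveI : Algebra.IsIntegral ℤ (heckeAlgebra (M / q) 2 (∅ : Set ℕ)) := inferInstance
  have hint : ∀ s : MvPolynomial {ℓ : Nat.Primes // (ℓ : ℕ) ∉ S} ℤ, ∃ P : ℤ[X], P.Monic ∧
      eval₂ (algebraMap ℤ (MvPolynomial {ℓ : Nat.Primes // (ℓ : ℕ) ∉ S} ℤ)) s P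
        ∈ RingHom.ker χ := by
    intro s
    obtain ⟨P, hPm, hP⟩ := Algebra.IsIntegral.isIntegral (R := ℤ)
      (heckeEvalForms (M / q) 2 (MvPolynomial.rename Subtype.val s))
    refine ⟨P, hPm, hρχ ?_⟩
    rw [RingHom.mem_ker]
    show ((heckeAlgebra (M / q) 2 ∅).val.toRingHom)
      (((heckeEvalForms (M / q) 2).comp (MvPolynomial.rename Subtype.val).toRingHom)
        (eval₂ (algebraMap ℤ (MvPolynomial {ℓ : Nat.Primes // (ℓ : ℕ) ∉ S} ℤ)) s P)) = 0
    rw [Polynomial.hom_eval₂]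
    have e : ((heckeEvalForms (M / q) 2).comp (MvPolynomial.rename Subtype.val).toRingHom).comp
        (algebraMap ℤ (MvPolynomial {ℓ : Nat.Primes // (ℓ : ℕ) ∉ S} ℤ))
        = algebraMap ℤ (heckeAlgebra (M / q) 2 (∅ : Set ℕ)) := RingHom.ext_int _ _
    rw [e]
    have hP' : eval₂ (algebraMap ℤ (heckeAlgebra (M / q) 2 (∅ : Set ℕ)))
        (((heckeEvalForms (M / q) 2).comp (MvPolynomial.rename Subtype.val).toRingHom) s) P
        = 0 := hP
    rw [hP', map_zero]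
  have hker' : RingHom.ker ψ ≤ RingHom.ker χ := ker_le_of_isIntegral χ ψ hker hint
  have hkereq : RingHom.ker χ = RingHom.ker ψ := le_antisymm hker hker'
  -- the values of `χ` are algebraic
  have halg : ∀ s : MvPolynomial {ℓ : Nat.Primes // (ℓ : ℕ) ∉ S} ℤ, IsAlgebraic ℚ (χ s) := by
    intro s
    obtain ⟨P, hPm, hP⟩ := hint s
    rw [RingHom.mem_ker, Polynomial.hom_eval₂] at hP
    have hZ : IsIntegral ℤ (χ s) := by
      refine ⟨P, hPm, ?_⟩
      have e : χ.comp (algebraMap ℤ (MvPolynomial {ℓ : Nat.Primes // (ℓ : ℕ) ∉ S} ℤ))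
          = algebraMap ℤ ℂ := RingHom.ext_int _ _
      rw [← e]
      exact hP
    exact (hZ.tower_top (A := ℚ)).isAlgebraic
  obtain ⟨σ, hσ⟩ := exists_ringEquiv_of_ker_eq χ ψ hkereq halg
  -- the eigenform of level `M / q`
  let lam : ℕ → ℂ := fun ℓ =>
    if hc : ℓ.Prime ∧ ℓ ∉ S then χ (MvPolynomial.X ⟨⟨ℓ, hc.1⟩, hc.2⟩) else 0
  have hlam : ∀ i : {ℓ : Nat.Primes // (ℓ : ℕ) ∉ S},
      lam ((i : Nat.Primes) : ℕ) = χ (MvPolynomial.X i) := by
    intro i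
    have hc : ((i : Nat.Primes) : ℕ).Prime ∧ ((i : Nat.Primes) : ℕ) ∉ S := ⟨i.1.2, i.2⟩
    simp only [lam, dif_pos hc]
    rfl
  have hρX : ∀ i : {ℓ : Nat.Primes // (ℓ : ℕ) ∉ S},
      ρ (MvPolynomial.X i) = heckeTLin 2 i.1.2 (hIN i) := by
    intro i
    show ((heckeAlgebra (M / q) 2 ∅).val.toRingHom)
      ((heckeEvalForms (M / q) 2) (MvPolynomial.rename Subtype.val (MvPolynomial.X i))) = _
    rw [MvPolynomial.rename_X]
    have e2 : heckeEvalForms (M / q) 2 (MvPolynomial.X (i : Nat.Primes))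
        = heckeAlgebra.T i.1.2 (hIN i) (Set.notMem_empty _) :=
      heckeEvalForms_heckeGen_of_not_dvd (hIN i)
    rw [e2]
    rfl
  obtain ⟨f₁, hf₁, hf₁c⟩ :=
    Fermat.Agent.Lib.Newform.H863.exists_normalizedEigenform_of_eigenvector
      (M := M / q) (↑S : Set ℕ) lam h hh (by
        intro ℓ hℓ hℓN hℓS
        have hℓS' : ℓ ∉ S := fun hmem => hℓS (Finset.mem_coe.mpr hmem)
        have h1 := hχ (MvPolynomial.X ⟨⟨ℓ, hℓ⟩, hℓS'⟩)
        rw [hρX ⟨⟨ℓ, hℓ⟩, hℓS'⟩, ← hlam ⟨⟨ℓ, hℓ⟩, hℓS'⟩] at h1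
        exact h1)
  obtain ⟨f₂, hf₂, hf₂c⟩ := exists_conj_eigenform (σ : ℂ →+* ℂ) hf₁
  -- cross level
  have hdvd : M ∣ M / q :=
    Fermat.Agent.Lib.Newform.H958.X.crossLevel M (M / q) g f₂ hg hf₂ S (by
      intro ℓ hℓ hℓS
      have hℓN : ¬ ℓ ∣ M / q := hIN ⟨⟨ℓ, hℓ⟩, hℓS⟩
      rw [hf₂c ℓ, hf₁c ℓ hℓ hℓN (fun hmem => hℓS (Finset.mem_coe.mp hmem)),
        hlam ⟨⟨ℓ, hℓ⟩, hℓS⟩]
      have h1 := hσ (MvPolynomial.X ⟨⟨ℓ, hℓ⟩, hℓS⟩)
      rw [RingEquiv.coe_toRingHom, h1]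
      show qCoeff g ℓ = MvPolynomial.aeval (fun ℓ : {ℓ : Nat.Primes // (ℓ : ℕ) ∉ S} =>
        qCoeff g ((ℓ : Nat.Primes) : ℕ)) (MvPolynomial.X ⟨⟨ℓ, hℓ⟩, hℓS⟩)
      rw [MvPolynomial.aeval_X])
  have hM0 : 0 < M := Nat.pos_of_ne_zero (NeZero.ne M)
  have hlt : M / q < M := Nat.div_lt_self hM0 hq.one_lt
  have hle : M ≤ M / q := Nat.le_of_dvd (Nat.pos_of_ne_zero (NeZero.ne (M / q))) hdvd
  omega

end Fermat.Agent.S35.H252
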