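/-
S35, piece (X) (helper252): `Fermat.Agent.S35.H991.ExclTateStatement`, UNCONDITIONAL.

The eigensystem of a newform of level `M` does not occur in the `p`-adic Tate module of
`J₀(M / q)`, `q ∣ M` prime.

  exclTate = exclTate_of_poly (exclPoly_of xForms xJac)

* `xForms` (XForms.lean): a polynomial `t` in the `T_ℓ`, `ℓ ∉ S`, vanishing on `S₂(Γ₀(M / q))` with
  `t(a_ℓ(g)) ≠ 0`;
* `xJac` (Factor.lean): such a `t` kills the `p`-power torsion of `J₀(M / q)`;
* `exclTate_of_poly` (ExclGlue.lean): the Tate module form.
-/
import Fermat.Agent.S35.H252.ExclGlue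
import Fermat.Agent.S35.H252.Factor
import Fermat.Agent.S35.H252.XForms

set_option autoImplicit false

namespace Fermat.Agent.S35.H252

/-- **(X)**, polynomial form, unconditional. -/
theorem exclPoly : ExclPolyStatement := exclPoly_of xForms xJac

/-- **(X)**, the input `ExclTateStatement` of the S35 mid layer, unconditional. -/
theorem exclTate : Fermat.Agent.S35.H991.ExclTateStatement := exclTate_of_poly exclPoly

end Fermat.Agent.S35.H252
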