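/-
S35, piece (X) (helper252): the tail glue

  `ExclPolyStatement → Fermat.Agent.S35.H991.ExclTateStatement`.

Given a polynomial `t` in the Hecke operators away from `S` which kills the `p`-power torsion of
`J₀(M / q)` and with `t(a_ℓ(g)) ≠ 0`, an eigen-sequence `z n ∈ O' ⊗ J₀(M / q)` with the eigenvalues
of `g` satisfies `0 = t • z n = ι(t(a_ℓ(g))) • z n`; as `ι` is injective (integrality) the scalar is
a nonzero element of the discrete valuation ring `O'`, hence divides a power of `p`, and
`z n = p ^ k • z (n + k) = 0`.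
-/
import Fermat.Agent.S35.H252.XSpec
import Fermat.Agent.S35.H991.Mid
import Fermat.Agent.S22

set_option autoImplicit false

namespace Fermat.Agent.S35.H252

open TensorProduct CongruenceSubgroup

/-- A ring homomorphism from a domain which is integral over `ℤ` to a ring of characteristic
zero is injective. -/
theorem injective_of_isIntegral_int {A B : Type*} [CommRing A] [IsDomain A]
    [Algebra.IsIntegral ℤ A] [CommRing B] [CharZero B] (f : A →+* B) : Function.Injective f := by
  rw [RingHom.injective_iff_ker_eq_bot]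
  apply Ideal.eq_bot_of_comap_eq_bot (R := ℤ)
  rw [eq_bot_iff]
  intro n hn
  rw [Ideal.mem_comap, RingHom.mem_ker, eq_intCast, map_intCast] at hn
  rw [Ideal.mem_bot]
  exact_mod_cast hn

/-- In a discrete valuation ring every nonzero element divides a power of any element of the
maximal ideal. -/
theorem exists_pow_eq_mul_of_ne_zero {O : Type*} [CommRing O] [IsDomain O]
    [IsDiscreteValuationRing O] {π c : O} (hπ : π ∈ IsLocalRing.maximalIdeal O) (hc : c ≠ 0) :
    ∃ (k : ℕ) (d : O), π ^ k = d * c := by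
  obtain ⟨ϖ, hϖ⟩ := IsDiscreteValuationRing.exists_irreducible O
  obtain ⟨k, hk⟩ := IsDiscreteValuationRing.associated_pow_irreducible hc hϖ
  have h1 : ϖ ∣ π := by
    rw [hϖ.maximalIdeal_eq, Ideal.mem_span_singleton] at hπ
    exact hπ
  have h2 : c ∣ π ^ k := hk.dvd.trans (pow_dvd_pow_of_dvd h1 k)
  obtain ⟨d, hd⟩ := h2
  exact ⟨k, d, by rw [hd, mul_comm]⟩

/-- **(X), tail glue.** -/
theorem exclTate_of_poly (hX : ExclPolyStatement) :
    Fermat.Agent.S35.H991.ExclTateStatement := by
  classical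
  intro M _ g hg q _ hq hqM p _ S O' _ _ _ _ _ _ hpO' chig hchig iota hpS hMS z hz0 hzs hzeig
  have hp : p.Prime := Fact.out
  obtain ⟨h, t, hkill, htg⟩ := hX M g hg q hq hqM p S hp hpS hMS
  -- the index type and the good primes
  have hIM : ∀ i : {ℓ : Nat.Primes // (ℓ : ℕ) ∉ S}, ¬ ((i : Nat.Primes) : ℕ) ∣ M :=
    fun i hdvd => i.2 (hMS _ i.1.2 hdvd)
  have hIS : ∀ i : {ℓ : Nat.Primes // (ℓ : ℕ) ∉ S}, ((i : Nat.Primes) : ℕ) ∉ (↑S : Set ℕ) :=
    fun i hmem => i.2 (Finset.mem_coe.mp hmem)
  -- the evaluation at level `M`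
  let evM : MvPolynomial {ℓ : Nat.Primes // (ℓ : ℕ) ∉ S} ℤ →ₐ[ℤ]
      CuspForm.heckeAlgebra M 2 (↑S : Set ℕ) :=
    MvPolynomial.aeval fun i => CuspForm.heckeAlgebra.T i.1.2 (hIM i) (hIS i)
  let ψ : MvPolynomial {ℓ : Nat.Primes // (ℓ : ℕ) ∉ S} ℤ →+* O' :=
    (iota.comp chig.rangeRestrict).comp evM.toRingHom
  have hψX : ∀ i : {ℓ : Nat.Primes // (ℓ : ℕ) ∉ S},
      ψ (MvPolynomial.X i)
        = (iota.comp chig.rangeRestrict) (CuspForm.heckeAlgebra.T i.1.2 (hIM i) (hIS i)) := by
    intro i
    show (iota.comp chig.rangeRestrict) (evM (MvPolynomial.X i)) = _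
    rw [MvPolynomial.aeval_X]
  have hψC : ∀ a : ℤ, ψ (MvPolynomial.C a) = (a : O') := by
    intro a
    rw [← MvPolynomial.algebraMap_eq, eq_intCast, map_intCast]
  -- Claim 1: `t` acts on the eigen-sequence through `ψ`
  have claim1 : ∀ (s : MvPolynomial {ℓ : Nat.Primes // (ℓ : ℕ) ∉ S} ℤ) (n : ℕ),
      (ModularCurve.heckeEvalBar h (MvPolynomial.rename Subtype.val s)).baseChange O' (z n)
        = ψ s • z n := by
    intro s
    induction s using MvPolynomial.induction_on with
    | C a =>
      intro n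
      rw [MvPolynomial.rename_C, ModularCurve.heckeEvalBar_C, hψC]
      have h1 : ((a : Module.End ℤ (ModularCurve.JZero (M / q))))
          = a • (LinearMap.id : ModularCurve.JZero (M / q) →ₗ[ℤ] ModularCurve.JZero (M / q)) := by
        rw [← Module.End.one_eq_id, zsmul_one]
      rw [h1, LinearMap.baseChange_smul, LinearMap.baseChange_id, LinearMap.smul_apply,
        LinearMap.id_apply]
      exact (Int.cast_smul_eq_zsmul O' a (z n)).symm
    | add s₁ s₂ h₁ h₂ =>
      intro n
      rw [map_add, map_add, LinearMap.baseChange_add, LinearMap.add_apply, h₁ n, h₂ n, map_add,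
        add_smul]
    | mul_X s i hs =>
      intro n
      rw [map_mul, map_mul, MvPolynomial.rename_X]
      have h1 : ModularCurve.heckeEvalBar h (MvPolynomial.X (i : Nat.Primes))
          = ModularCurve.heckeOperatorBar (M / q) (i : Nat.Primes) :=
        ModularCurve.heckeEvalBar_heckeGen h (i : Nat.Primes)
      rw [h1, Module.End.mul_eq_comp, LinearMap.baseChange_comp, LinearMap.comp_apply]
      have h2 : (ModularCurve.heckeOperatorBar (M / q) (i : Nat.Primes)).baseChange O' (z n)
          = (iota.comp chig.rangeRestrict)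
              (CuspForm.heckeAlgebra.T i.1.2 (hIM i) (hIS i)) • z n :=
        hzeig i.1 i.1.2 (hIM i) (hIS i) n
      rw [h2, map_smul, hs n, map_mul, hψX i, smul_smul, mul_comm]
  -- Claim 2: `z n` is killed by `p ^ (n + 1)`
  have hzp : ∀ n : ℕ, ((p : O') ^ (n + 1)) • z n = 0 := by
    intro n
    induction n with
    | zero => rw [zero_add, pow_one]; exact hz0
    | succ n ih => rw [pow_succ, mul_smul, hzs n]; exact ih
  have hzpZ : ∀ n : ℕ, ((p : ℤ) ^ (n + 1)) • z n = 0 := by
    intro n
    rw [← Int.cast_smul_eq_zsmul O' ((p : ℤ) ^ (n + 1)) (z n)]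
    push_cast
    exact hzp n
  haveI : Module.Flat ℤ O' := inferInstance
  have claim2 : ∀ n : ℕ,
      (ModularCurve.heckeEvalBar h (MvPolynomial.rename Subtype.val t)).baseChange O' (z n)
        = 0 := fun n =>
    Fermat.Agent.S30.H529.baseChange_eq_zero_of_torsion O' ((p : ℤ) ^ (n + 1))
      (ModularCurve.heckeEvalBar h (MvPolynomial.rename Subtype.val t))
      (fun y hy => hkill (n + 1) y hy) (z n) (hzpZ n)
  have hc0 : ∀ n : ℕ, ψ t • z n = 0 := fun n => by rw [← claim1 t n, claim2 n]
  -- `ψ t ≠ 0`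
  have hchigev : ∀ s : MvPolynomial {ℓ : Nat.Primes // (ℓ : ℕ) ∉ S} ℤ,
      chig (evM s) = MvPolynomial.aeval (fun ℓ : {ℓ : Nat.Primes // (ℓ : ℕ) ∉ S} =>
        ModularFormClass.qCoeff g ((ℓ : Nat.Primes) : ℕ)) s := by
    intro s
    induction s using MvPolynomial.induction_on with
    | C a =>
      rw [← MvPolynomial.algebraMap_eq, eq_intCast, map_intCast, map_intCast, map_intCast]
    | add s₁ s₂ h₁ h₂ => rw [map_add, map_add, map_add, h₁, h₂]
    | mul_X s i hs =>
      rw [map_mul, map_mul, map_mul, hs, MvPolynomial.aeval_X, MvPolynomial.aeval_X,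
        hchig i.1 i.1.2 (hIM i) (hIS i)]
  haveI : Module.Finite ℤ (CuspForm.heckeAlgebra M 2 (↑S : Set ℕ)) :=
    Fermat.Agent.S22.result M 2 (↑S : Set ℕ)
  haveI : Algebra.IsIntegral ℤ (CuspForm.heckeAlgebra M 2 (↑S : Set ℕ)) := inferInstance
  haveI : Algebra.IsIntegral ℤ chig.range := by
    refine ⟨fun y => ?_⟩
    obtain ⟨b, hb⟩ := chig.rangeRestrict_surjective y
    rw [← hb]
    exact (Algebra.IsIntegral.isIntegral (R := ℤ) b).map
      (chig.rangeRestrict.toIntAlgHom)
  have hinj : Function.Injective iota := injective_of_isIntegral_int iota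
  have hψt : ψ t ≠ 0 := by
    intro h0
    have h1 : iota (chig.rangeRestrict (evM t)) = iota 0 := by rw [map_zero]; exact h0
    have h2 := hinj h1
    have h3 : chig (evM t) = 0 := congrArg Subtype.val h2
    rw [hchigev t] at h3
    exact htg h3
  -- conclusion
  obtain ⟨k, d, hkd⟩ := exists_pow_eq_mul_of_ne_zero hpO' hψt
  have hpk : ∀ n : ℕ, ((p : O') ^ k) • z n = 0 := by
    intro n
    rw [hkd, mul_smul, hc0 n, smul_zero]
  have hshift : ∀ (j n : ℕ), ((p : O') ^ j) • z (n + j) = z n := by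
    intro j
    induction j with
    | zero => intro n; rw [pow_zero, one_smul, add_zero]
    | succ j ih =>
      intro n
      rw [pow_succ, mul_smul, ← add_assoc, hzs (n + j)]
      exact ih n
  funext n
  rw [← hshift k n, hpk (n + k)]
  rfl

end Fermat.Agent.S35.H252
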